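import Mathlib
import Fermat.Prelude.Def_GaloisRep_Residual
import Fermat.Prelude.Def_Deformations_MatrixRepresentation

/-!
# S48 (Deligne-Serre): basic definitions

`f` is a cusp form of weight one on `Γ₁(N)` with `a₁ = 1` whose `q`-coefficients satisfy the formal Hecke
relations for the Dirichlet character `ε` at all primes `p ∤ N` (`IsEigen N ε f`).

Analytic notation: `LL t = log (1/(t-1))`, `pSum S t = ∑_{p ∈ S} p^{-t}` (`S` a set of primes),
`wSum w t = ∑_p w(p) p^{-t}`.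
-/

set_option autoImplicit false

open CongruenceSubgroup
open scoped MatrixGroups

namespace Fermat.Agent.S48

/-- the algebraic closure of `ℚ`. -/
abbrev Qb : Type := AlgebraicClosure ℚ

/-- the absolute Galois group of `ℚ`. -/
abbrev GQ : Type := Qb ≃ₐ[ℚ] Qb

/-- the ring of algebraic integers in `ℂ`. -/
abbrev Zb : Type := integralClosure ℤ ℂ

/-- the hypotheses of S48. -/
structure IsEigen (N : ℕ) [NeZero N] (ε : DirichletCharacter ℂ N) (f : CuspForm (Gamma1 N) 1) :
    Prop where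
  one : ModularFormClass.qCoeff f 1 = 1
  rel : ∀ p : ℕ, p.Prime → ¬ p ∣ N → ∀ n : ℕ,
    ModularFormClass.qCoeff f (p * n) +
        ε (p : ZMod N) * (if p ∣ n then ModularFormClass.qCoeff f (n / p) else 0) =
      ModularFormClass.qCoeff f p * ModularFormClass.qCoeff f n

/-- `log (1/(t-1))`. -/
noncomputable def LL (t : ℝ) : ℝ := Real.log (1 / (t - 1))

/-- `∑ p^{-t}` over a set of natural numbers (always a set of primes). -/
noncomputable def pSum (S : Set ℕ) (t : ℝ) : ℝ := ∑' p : S, ((p : ℕ) : ℝ) ^ (-t)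

/-- `∑ w(p) p^{-t}` over all primes. -/
noncomputable def wSum (w : ℕ → ℝ) (t : ℝ) : ℝ :=
  ∑' p : {p : ℕ | p.Prime}, w p * ((p : ℕ) : ℝ) ^ (-t)

/-- `σ` is a Frobenius element at some place over `p`. -/
def IsFrobAt (p : ℕ) (σ : GQ) : Prop :=
  ∃ A : ValuationSubring Qb, A.LiesOverPrime p ∧ A.IsFrobeniusAt σ p

/-- a two dimensional matrix representation is semisimple: every stable line has a stable
complement. -/
def IsSS {G K : Type*} [Group G] [Field K] (ρ : G →* GL (Fin 2) K) : Prop :=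
  ∀ v : Fin 2 → K, v ≠ 0 → (∀ g : G, ∃ c : K, (ρ g : Matrix (Fin 2) (Fin 2) K).mulVec v = c • v) →
    ∃ w : Fin 2 → K, LinearIndependent K ![v, w] ∧
      ∀ g : G, ∃ c : K, (ρ g : Matrix (Fin 2) (Fin 2) K).mulVec w = c • w

/-- `ρ` is unramified at `r` and every Frobenius element at `r` has trace `t` and determinant `d`. -/
def GoodAt {K : Type} [Field K] (ρ : GQ →* GL (Fin 2) K) (r : ℕ) (t d : K) : Prop :=
  ∀ A : ValuationSubring Qb, A.LiesOverPrime r →
    (∀ σ ∈ A.inertiaSubgroupIn ℚ, ρ σ = 1) ∧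
    ∀ σ : GQ, A.IsFrobeniusAt σ r →
      (ρ σ : Matrix (Fin 2) (Fin 2) K).trace = t ∧ (ρ σ : Matrix (Fin 2) (Fin 2) K).det = d

/-- `ρ` is a residual representation attached to `f` with respect to `φ : ℤ̄ → K` (`char K = ℓ`). -/
structure IsResidual (N : ℕ) [NeZero N] (ε : DirichletCharacter ℂ N) (f : CuspForm (Gamma1 N) 1)
    (ℓ : ℕ) {K : Type} [Field K] (φ : Zb →+* K) (ρ : GQ →* GL (Fin 2) K) : Prop where
  level : GaloisFactorsThroughFiniteLevel ρ
  ss : IsSS ρ
  good : ∀ r : ℕ, r.Prime → ¬ r ∣ N * ℓ → ∀ a e : Zb, (a : ℂ) = ModularFormClass.qCoeff f r →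
    (e : ℂ) = ε (r : ZMod N) → GoodAt ρ r (φ a) (φ e)

end Fermat.Agent.S48
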