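import Fermat.Agent.S48.Defs
import Fermat.Agent.S31.Burnside

/-!
# S48, chapter GT (group theory)

A finite semisimple subgroup `G` of `GL₂(K)` (`K` algebraically closed) in which a subset `T` of proportion `≥ 1 - η > 3/4` has
at most `M₀` characteristic polynomials has bounded order.  (No classification of subgroups, no hypothesis on the characteristic.)

## Proof
* REDUCIBLE CASE.  `G` is diagonal in a basis `v, w` (`IsSS`): `g ↦ (c g, c' g)` is injective and both eigenvalues are roots of
  `X² - t X + d`: `|T| ≤ 4 M₀`.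
* IRREDUCIBLE CASE.  By Burnside (`S31.burnside_dual`) the linear forms `X ↦ tr (X g)`, `g ∈ G`, on `M₂(K)` have no common zero `≠ 0`; so four of them,
  `g₁, …, g₄`, already have this property (`exists_tuple`).  `G' = {g : g gᵢ ∈ T for all i}` has at least `|G| - 4 (|G| - |T|) ≥ (1 - 4 η) |G|` elements
  (`card_le_add`), and `g ↦ (tr (g gᵢ))ᵢ` is injective with values in a set with `≤ M₀⁴` elements.
-/

set_option autoImplicit false

open scoped MatrixGroups

namespace Fermat.Agent.S48

namespace GT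

open Matrix Polynomial

/-- finitely many of a family of linear forms without common zero have no common zero. -/
theorem exists_tuple {K V ι : Type*} [Field K] [AddCommGroup V] [Module K V] [FiniteDimensional K V]
    [Nonempty ι] (lam : ι → V →ₗ[K] K) (h : ∀ X : V, (∀ g, lam g X = 0) → X = 0) :
    ∀ (n : ℕ) (U : Submodule K V), Module.finrank K U ≤ n →
      ∃ x : Fin n → ι, ∀ X ∈ U, (∀ i, lam (x i) X = 0) → X = 0 := by
  intro n
  induction n with
  | zero =>
    intro U hU
    refine ⟨Fin.elim0, fun X hX _ => ?_⟩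
    have h0 : U = ⊥ := Submodule.finrank_eq_zero.mp (Nat.le_zero.mp hU)
    rw [h0, Submodule.mem_bot] at hX
    exact hX
  | succ n ih =>
    intro U hU
    by_cases hbot : U = ⊥
    · refine ⟨fun _ => Classical.arbitrary ι, fun X hX _ => ?_⟩
      rw [hbot, Submodule.mem_bot] at hX
      exact hX
    · obtain ⟨X₀, hX₀, hX₀ne⟩ := Submodule.exists_mem_ne_zero_of_ne_bot hbot
      obtain ⟨g, hg⟩ : ∃ g, lam g X₀ ≠ 0 := by
        by_contra hcon
        push Not at hcon
        exact hX₀ne (h X₀ hcon)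
      have hlt : U ⊓ LinearMap.ker (lam g) < U := by
        refine lt_of_le_of_ne inf_le_left fun heq => hg ?_
        have : X₀ ∈ U ⊓ LinearMap.ker (lam g) := by rw [heq]; exact hX₀
        exact LinearMap.mem_ker.mp this.2
      have hfr := Submodule.finrank_lt_finrank_of_lt hlt
      obtain ⟨x, hx⟩ := ih (U ⊓ LinearMap.ker (lam g)) (by omega)
      refine ⟨Fin.cons g x, fun X hX hall => ?_⟩
      refine hx X ⟨hX, LinearMap.mem_ker.mpr ?_⟩ fun i => ?_
      · simpa using hall 0
      · simpa using hall i.succ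

/-- counting the translates of a large subset. -/
theorem card_le_add {H : Type*} [Group H] [Fintype H] [DecidableEq H] (T : Finset H) {n : ℕ}
    (x : Fin n → H) :
    Fintype.card H ≤ (Finset.univ.filter (fun g : H => ∀ i, g * x i ∈ T)).card
      + n * (Fintype.card H - T.card) := by
  have h1 : (Finset.univ : Finset H) ⊆ (Finset.univ.filter (fun g : H => ∀ i, g * x i ∈ T)) ∪
      Finset.univ.biUnion (fun i : Fin n => Finset.univ.filter (fun g : H => g * x i ∉ T)) := by
    intro g _
    by_cases hg : ∀ i, g * x i ∈ T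
    · exact Finset.mem_union_left _ (Finset.mem_filter.mpr ⟨Finset.mem_univ _, hg⟩)
    · push Not at hg
      obtain ⟨i, hi⟩ := hg
      exact Finset.mem_union_right _ (Finset.mem_biUnion.mpr
        ⟨i, Finset.mem_univ _, Finset.mem_filter.mpr ⟨Finset.mem_univ _, hi⟩⟩)
  have h2 : ∀ a : H, (Finset.univ.filter (fun g : H => g * a ∉ T)).card
      = Fintype.card H - T.card := by
    intro a
    rw [← Finset.card_compl]
    refine Finset.card_bij (fun g _ => g * a) ?_ ?_ ?_
    · intro g hg
      exact Finset.mem_compl.mpr (Finset.mem_filter.mp hg).2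
    · intro g _ g' _ hgg
      exact mul_right_cancel hgg
    · intro b hb
      refine ⟨b * a⁻¹, Finset.mem_filter.mpr ⟨Finset.mem_univ _, ?_⟩, by simp⟩
      rw [inv_mul_cancel_right]
      exact Finset.mem_compl.mp hb
  calc Fintype.card H = (Finset.univ : Finset H).card := rfl
    _ ≤ _ := Finset.card_le_card h1
    _ ≤ _ := Finset.card_union_le _ _
    _ ≤ (Finset.univ.filter (fun g : H => ∀ i, g * x i ∈ T)).card
        + ∑ i : Fin n, (Finset.univ.filter (fun g : H => g * x i ∉ T)).card :=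
      Nat.add_le_add_left Finset.card_biUnion_le _
    _ = _ := by simp [h2]

section

variable {K : Type} [Field K] (G : Subgroup (GL (Fin 2) K))

/-- the matrix of an element of `G`. -/
abbrev mat (g : G) : Matrix (Fin 2) (Fin 2) K := ((g : GL (Fin 2) K) : Matrix (Fin 2) (Fin 2) K)

theorem mat_injective : Function.Injective (mat G) := fun _ _ h => Subtype.ext (Units.ext h)

/-- the irreducible case. -/
theorem card_le_irred [IsAlgClosed K] [Fintype G] [DecidableEq G]
    (hirr : ∀ W : Submodule K (Fin 2 → K), (∀ g : G, ∀ v ∈ W, (mat G g).mulVec v ∈ W) →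
      W = ⊥ ∨ W = ⊤)
    (T : Finset G) (Q : Finset K) (hQ : ∀ g ∈ T, (mat G g).trace ∈ Q) :
    Fintype.card G ≤ Q.card ^ 4 + 4 * (Fintype.card G - T.card) := by
  classical
  let M : G →* Matrix (Fin 2) (Fin 2) K :=
    { toFun := mat G
      map_one' := rfl
      map_mul' := fun _ _ => rfl }
  let lam : G → Matrix (Fin 2) (Fin 2) K →ₗ[K] K := fun g =>
    (Matrix.traceLinearMap (Fin 2) K K).comp (LinearMap.mulRight K (mat G g))
  have hlam : ∀ g X, lam g X = (X * mat G g).trace := fun _ _ => rfl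
  obtain ⟨x, hx⟩ := exists_tuple lam (fun X hX => S31.burnside_dual M hirr X hX) 4 ⊤ (by
    rw [finrank_top, Module.finrank_matrix]
    simp)
  refine (card_le_add T x).trans (Nat.add_le_add_right ?_ _)
  have h4 : (Fintype.piFinset (fun _ : Fin 4 => Q)).card = Q.card ^ 4 := by
    rw [Fintype.card_piFinset]
    simp
  rw [← h4]
  refine Finset.card_le_card_of_injOn (fun g i => (mat G (g * x i)).trace) ?_ ?_
  · intro g hg
    rw [Finset.mem_coe, Fintype.mem_piFinset]
    intro i
    exact hQ _ ((Finset.mem_filter.mp hg).2 i)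
  · intro g _ g' _ hgg
    apply mat_injective G
    rw [← sub_eq_zero]
    refine hx _ Submodule.mem_top fun i => ?_
    rw [hlam, sub_mul, Matrix.trace_sub, sub_eq_zero]
    exact congrFun hgg i

theorem root_of_eigen [DecidableEq K] (A : Matrix (Fin 2) (Fin 2) K) (v : Fin 2 → K) (hv : v ≠ 0) (c : K)
    (h : A.mulVec v = c • v) : c ∈ (X ^ 2 - C A.trace * X + C A.det : K[X]).roots.toFinset := by
  have h1 : (A - c • (1 : Matrix (Fin 2) (Fin 2) K)).det = 0 := by
    rw [← Matrix.exists_mulVec_eq_zero_iff]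
    refine ⟨v, hv, ?_⟩
    rw [Matrix.sub_mulVec, h, Matrix.smul_mulVec, Matrix.one_mulVec, sub_self]
  have hne : (X ^ 2 - C A.trace * X + C A.det : K[X]) ≠ 0 := by
    intro h0
    have := congrArg (fun p => Polynomial.coeff p 2) h0
    simp at this
  rw [Multiset.mem_toFinset, Polynomial.mem_roots hne, Polynomial.IsRoot.def]
  simp only [eval_add, eval_sub, eval_pow, eval_X, eval_mul, eval_C]
  rw [Matrix.det_fin_two] at h1
  simp only [Matrix.sub_apply, Matrix.smul_apply, Matrix.one_apply_eq, smul_eq_mul, mul_one,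
    Matrix.one_apply_ne (show (0 : Fin 2) ≠ 1 by decide),
    Matrix.one_apply_ne (show (1 : Fin 2) ≠ 0 by decide), mul_zero, sub_zero] at h1
  rw [Matrix.trace_fin_two, Matrix.det_fin_two]
  linear_combination h1

theorem card_roots_le [DecidableEq K] (t d : K) : (X ^ 2 - C t * X + C d : K[X]).roots.toFinset.card ≤ 2 := by
  refine (Multiset.toFinset_card_le _).trans ((Polynomial.card_roots' _).trans ?_)
  have : (X ^ 2 - C t * X + C d : K[X]) = C 1 * X ^ 2 + C (-t) * X + C d := by
    simp only [map_one, map_neg]; ring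
  rw [this]
  exact Polynomial.natDegree_quadratic_le

/-- the reducible case. -/
theorem card_le_red [DecidableEq K] (v w : Fin 2 → K) (hlin : LinearIndependent K ![v, w])
    (hv : ∀ g : G, ∃ c : K, (mat G g).mulVec v = c • v)
    (hw : ∀ g : G, ∃ c : K, (mat G g).mulVec w = c • w)
    (T : Finset G) (P : Finset (K × K)) (hP : ∀ g ∈ T, ((mat G g).trace, (mat G g).det) ∈ P) :
    T.card ≤ 4 * P.card := by
  classical
  choose c hc using hv
  choose c' hc' using hw
  have hv0 : v ≠ 0 := by simpa using hlin.ne_zero 0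
  have hw0 : w ≠ 0 := by simpa using hlin.ne_zero 1
  let b := basisOfLinearIndependentOfCardEqFinrank hlin (by simp)
  have hb0 : b 0 = v := by simp [b]
  have hb1 : b 1 = w := by simp [b]
  let R : K × K → Finset K := fun p => (X ^ 2 - C p.1 * X + C p.2 : K[X]).roots.toFinset
  have hcard : (P.biUnion fun p => R p ×ˢ R p).card ≤ 4 * P.card := by
    refine Finset.card_biUnion_le.trans ?_
    rw [mul_comm, ← smul_eq_mul, ← Finset.sum_const]
    refine Finset.sum_le_sum fun p _ => ?_
    rw [Finset.card_product]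
    have := card_roots_le p.1 p.2
    calc (R p).card * (R p).card ≤ 2 * 2 := Nat.mul_le_mul this this
      _ = 4 := rfl
  refine le_trans (Finset.card_le_card_of_injOn (fun g => (c g, c' g)) ?_ ?_) hcard
  · intro g hg
    rw [Finset.mem_coe, Finset.mem_biUnion]
    exact ⟨_, hP g hg, Finset.mem_product.mpr
      ⟨root_of_eigen _ v hv0 _ (hc g), root_of_eigen _ w hw0 _ (hc' g)⟩⟩
  · intro g _ g' _ hgg
    have e1 : c g = c g' := congrArg Prod.fst hgg
    have e2 : c' g = c' g' := congrArg Prod.snd hgg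
    apply mat_injective G
    apply Matrix.toLin'.injective
    refine b.ext fun i => ?_
    fin_cases i
    · show Matrix.toLin' (mat G g) (b 0) = Matrix.toLin' (mat G g') (b 0)
      rw [hb0, Matrix.toLin'_apply, Matrix.toLin'_apply, hc, hc, e1]
    · show Matrix.toLin' (mat G g) (b 1) = Matrix.toLin' (mat G g') (b 1)
      rw [hb1, Matrix.toLin'_apply, Matrix.toLin'_apply, hc', hc', e2]

/-- no stable line implies irreducible. -/
theorem irred_of_no_line
    (h : ¬ ∃ v : Fin 2 → K, v ≠ 0 ∧ ∀ g : G, ∃ c : K, (mat G g).mulVec v = c • v)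
    (W : Submodule K (Fin 2 → K)) (hW : ∀ g : G, ∀ v ∈ W, (mat G g).mulVec v ∈ W) :
    W = ⊥ ∨ W = ⊤ := by
  by_contra hcon
  push Not at hcon
  obtain ⟨hbot, htop⟩ := hcon
  have h1 : Module.finrank K W < 2 := by
    have := Submodule.finrank_lt htop
    simpa using this
  have h2 : 0 < Module.finrank K W := by
    rw [Nat.pos_iff_ne_zero, Ne, Submodule.finrank_eq_zero]
    exact hbot
  have h3 : Module.finrank K W = 1 := by omega
  obtain ⟨v, hv0, hv⟩ := finrank_eq_one_iff'.mp h3
  apply h
  refine ⟨v, fun h0 => hv0 (Subtype.ext h0), fun g => ?_⟩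
  obtain ⟨c, hc⟩ := hv ⟨_, hW g v v.2⟩
  exact ⟨c, (congrArg Subtype.val hc).symm⟩

end

end GT

theorem card_le_of_few_charpolys (η : ℝ) (hη : η < 1 / 4) (M₀ : ℕ) :
    ∃ A₀ ℓ₀ : ℕ, ∀ ℓ : ℕ, ℓ.Prime → ℓ₀ ≤ ℓ → ∀ (K : Type) [Field K] [IsAlgClosed K] [CharP K ℓ]
      (G : Subgroup (GL (Fin 2) K)) [Finite G], IsSS G.subtype →
      ∀ T : Set (GL (Fin 2) K), T ⊆ G → (1 - η) * (Nat.card G : ℝ) ≤ (T.ncard : ℝ) →
      ∀ P : Finset (K × K), P.card ≤ M₀ →
        (∀ g ∈ T, ((g : Matrix (Fin 2) (Fin 2) K).trace, (g : Matrix (Fin 2) (Fin 2) K).det) ∈ P) →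
        Nat.card G ≤ A₀ := by
  classical
  refine ⟨⌈(M₀ : ℝ) ^ 4 / (1 - 4 * η)⌉₊ + 6 * M₀, 0, ?_⟩
  intro ℓ _ _ K _ _ _ G _ hss T hTG hT P hPM hP
  have : Fintype G := Fintype.ofFinite G
  let T' : Finset G := Finset.univ.filter fun g : G => (g : GL (Fin 2) K) ∈ T
  have hT' : T.ncard = T'.card := by
    have h1 : T = Subtype.val '' (T' : Set G) := by
      ext g
      constructor
      · intro hg
        exact ⟨⟨g, hTG hg⟩, by simpa [T'] using hg, rfl⟩
      · rintro ⟨g', hg', rfl⟩
        simpa [T'] using hg'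
    rw [h1, Set.ncard_image_of_injective _ Subtype.val_injective, Set.ncard_coe_finset]
  have hP' : ∀ g ∈ T', ((GT.mat G g).trace, (GT.mat G g).det) ∈ P := fun g hg =>
    hP _ (Finset.mem_filter.mp hg).2
  rw [hT', Nat.card_eq_fintype_card] at hT
  rw [Nat.card_eq_fintype_card]
  have hT'le : T'.card ≤ Fintype.card G := Finset.card_le_univ _
  by_cases hline : ∃ v : Fin 2 → K, v ≠ 0 ∧ ∀ g : G, ∃ c : K, (GT.mat G g).mulVec v = c • v
  · obtain ⟨v, hv0, hv⟩ := hline
    obtain ⟨w, hlin, hw⟩ := hss v hv0 hv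
    have h1 := GT.card_le_red G v w hlin hv hw T' P hP'
    have h2 : (T'.card : ℝ) ≤ 4 * M₀ := by
      have : T'.card ≤ 4 * M₀ := h1.trans (Nat.mul_le_mul_left 4 hPM)
      exact_mod_cast this
    have h3 : (Fintype.card G : ℝ) ≤ 6 * M₀ := by
      have h4 : (0 : ℝ) ≤ Fintype.card G := Nat.cast_nonneg _
      nlinarith
    have h5 : Fintype.card G ≤ 6 * M₀ := by exact_mod_cast h3
    omega
  · have h1 := GT.card_le_irred G (GT.irred_of_no_line G hline) T' (P.image Prod.fst) (by
      intro g hg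
      exact Finset.mem_image.mpr ⟨_, hP' g hg, rfl⟩)
    have h2 : (P.image Prod.fst).card ≤ M₀ := Finset.card_image_le.trans hPM
    have h3 : Fintype.card G ≤ M₀ ^ 4 + 4 * (Fintype.card G - T'.card) :=
      h1.trans (Nat.add_le_add_right (Nat.pow_le_pow_left h2 4) _)
    have h4 : (Fintype.card G : ℝ) ≤ (M₀ : ℝ) ^ 4 + 4 * ((Fintype.card G : ℝ) - T'.card) := by
      have := (Nat.cast_le (α := ℝ)).mpr h3
      push_cast [Nat.cast_sub hT'le] at this
      exact this
    have hpos : (0 : ℝ) < 1 - 4 * η := by linarith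
    have h5 : (Fintype.card G : ℝ) ≤ (M₀ : ℝ) ^ 4 / (1 - 4 * η) := by
      rw [le_div_iff₀ hpos]
      nlinarith
    have h6 : Fintype.card G ≤ ⌈(M₀ : ℝ) ^ 4 / (1 - 4 * η)⌉₊ := by
      exact_mod_cast h5.trans (Nat.le_ceil _)
    omega

end Fermat.Agent.S48
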