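import Fermat.Agent.S48.Defs

/-!
# S48, chapter LFN (lifting to characteristic zero by the Nullstellensatz; Mathlib only)

A finite system of equations `X_a X_b = X_{m(a,b)}`, `tr X_a = t_a`, `det X_a = d_a` (`a ∈ Fin n`, `t_a, d_a ∈ ℤ̄`) in `2 × 2` matrices which
has solutions in fields of infinitely many characteristics (through ring homomorphisms `φ : ℤ̄ → K`) has a solution in `ℂ`.

## Proof
Variables `x_{a,i,j}`, `σ = Fin n × Fin 2 × Fin 2` (finite).  Let `𝔸 = algebraicClosure ℚ ℂ` (algebraically closed) or work over `ℂ` directly.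
Let `F ⊆ MvPolynomial σ ℤ̄` be the finite family of polynomials expressing the equations and `I` the ideal generated by their images
in `MvPolynomial σ ℂ`.  If there is no solution in `ℂ` then `zeroLocus I = ∅`, so `I = ⊤` (`MvPolynomial.vanishingIdeal_zeroLocus_eq_radical`):
`1 = ∑_k c_k F_k`, `c_k ∈ ℂ[x]`.  DESCENT of the coefficients to `ℚ̄`: this is a linear system with coefficients in `ℚ̄ ∩ ℂ` in the (finitely many)
coefficients of the `c_k`; simplest: apply the Nullstellensatz over the algebraically closed field `𝔸 = algebraicClosure ℚ ℂ` instead (a solution over `𝔸` is a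
solution over `ℂ`).  Every element of `𝔸` is `b / D` with `b ∈ ℤ̄`, `D ∈ ℕ`, `D ≠ 0` (`exists_integral_multiple`); taking a common denominator:
`D = ∑_k c'_k F_k` in `MvPolynomial σ ℤ̄`, `D ≠ 0`.  Apply `φ` to the coefficients and evaluate at the solution over `K`: `(D : K) = 0`, so `ℓ ∣ D`.
This is impossible for `ℓ > D`.
-/

set_option autoImplicit false

namespace Fermat.Agent.S48

namespace LFN

open MvPolynomial

/-- the algebraic numbers in `ℂ`. -/
noncomputable abbrev AA : IntermediateField ℚ ℂ := algebraicClosure ℚ ℂ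

theorem isAlgebraic_coe (b : Zb) : IsAlgebraic ℚ (b : ℂ) :=
  (IsFractionRing.isAlgebraic_iff ℤ ℚ ℂ).1 b.2.isAlgebraic

/-- `ℤ̄ → 𝔸`. -/
noncomputable def jj : Zb →+* AA where
  toFun b := ⟨(b : ℂ), mem_algebraicClosure_iff.2 (isAlgebraic_coe b)⟩
  map_one' := rfl
  map_zero' := rfl
  map_mul' _ _ := rfl
  map_add' _ _ := rfl

theorem coe_jj (b : Zb) : ((jj b : AA) : ℂ) = b := rfl

theorem jj_injective : Function.Injective jj := fun _ _ h =>
  Subtype.ext (congrArg (fun x : AA => (x : ℂ)) h)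

theorem exists_denom (a : AA) : ∃ D : ℕ, D ≠ 0 ∧ ∃ b : Zb, jj b = (D : AA) * a := by
  have h1 : IsAlgebraic ℚ (a : ℂ) := mem_algebraicClosure_iff.1 a.2
  have h2 : IsAlgebraic ℤ (a : ℂ) := (IsFractionRing.isAlgebraic_iff ℤ ℚ ℂ).2 h1
  obtain ⟨y, hy, hint⟩ := h2.exists_integral_multiple
  refine ⟨y.natAbs, Int.natAbs_ne_zero.2 hy, ?_⟩
  have h3 : IsIntegral ℤ ((y.natAbs : ℂ) * (a : ℂ)) := by
    rw [zsmul_eq_mul] at hint
    rcases Int.natAbs_eq y with h | h
    · have e : ((y.natAbs : ℂ)) = ((y : ℤ) : ℂ) := by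
        conv_rhs => rw [h]
        simp
      rw [e]
      exact hint
    · have e : ((y.natAbs : ℂ)) * (a : ℂ) = -(((y : ℤ) : ℂ) * (a : ℂ)) := by
        conv_rhs => rw [h]
        simp
      rw [e]
      exact hint.neg
  exact ⟨⟨_, h3⟩, Subtype.ext (by simp [coe_jj])⟩

variable {σ : Type}

theorem map_C_natCast (D : ℕ) :
    map jj (C (D : Zb) : MvPolynomial σ Zb) = (C (D : AA) : MvPolynomial σ AA) := by
  rw [map_C, map_natCast jj D]

theorem exists_denom_poly (p : MvPolynomial σ AA) :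
    ∃ D : ℕ, D ≠ 0 ∧ ∃ p' : MvPolynomial σ Zb, map jj p' = C (D : AA) * p := by
  induction p using MvPolynomial.induction_on' with
  | monomial u a =>
    obtain ⟨D, hD, b, hb⟩ := exists_denom a
    exact ⟨D, hD, monomial u b, by rw [map_monomial, C_mul_monomial, hb]⟩
  | add p q hp hq =>
    obtain ⟨D1, hD1, p1, h1⟩ := hp
    obtain ⟨D2, hD2, p2, h2⟩ := hq
    refine ⟨D1 * D2, Nat.mul_ne_zero hD1 hD2, C (D2 : Zb) * p1 + C (D1 : Zb) * p2, ?_⟩
    rw [map_add, map_mul, map_mul, h1, h2, map_C_natCast, map_C_natCast, Nat.cast_mul, C_mul]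
    ring

theorem exists_denom_span {ι : Type} (F : ι → MvPolynomial σ Zb) (p : MvPolynomial σ AA)
    (hp : p ∈ Ideal.span (Set.range fun k => map jj (F k))) :
    ∃ D : ℕ, D ≠ 0 ∧ ∃ p' ∈ Ideal.span (Set.range F), map jj p' = C (D : AA) * p := by
  induction hp using Submodule.span_induction with
  | mem x hx =>
    obtain ⟨k, rfl⟩ := hx
    exact ⟨1, one_ne_zero, F k, Ideal.subset_span ⟨k, rfl⟩, by simp⟩
  | zero => exact ⟨1, one_ne_zero, 0, zero_mem _, by simp⟩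
  | add x y _ _ hx hy =>
    obtain ⟨D1, hD1, p1, hp1, h1⟩ := hx
    obtain ⟨D2, hD2, p2, hp2, h2⟩ := hy
    refine ⟨D1 * D2, Nat.mul_ne_zero hD1 hD2, C (D2 : Zb) * p1 + C (D1 : Zb) * p2,
      add_mem (Ideal.mul_mem_left _ _ hp1) (Ideal.mul_mem_left _ _ hp2), ?_⟩
    rw [map_add, map_mul, map_mul, h1, h2, map_C_natCast, map_C_natCast, Nat.cast_mul, C_mul]
    ring
  | smul a x _ hx =>
    obtain ⟨D1, hD1, p1, hp1, h1⟩ := hx
    obtain ⟨D2, hD2, a', h2⟩ := exists_denom_poly a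
    refine ⟨D1 * D2, Nat.mul_ne_zero hD1 hD2, a' * p1, Ideal.mul_mem_left _ _ hp1, ?_⟩
    rw [map_mul, h1, h2, Nat.cast_mul, C_mul, smul_eq_mul]
    ring

/-- the abstract lifting principle. -/
theorem exists_point [Finite σ] {ι : Type} (F : ι → MvPolynomial σ Zb)
    (h : ∀ B : ℕ, ∃ ℓ : ℕ, B < ℓ ∧ ∃ (K : Type) (_ : Field K) (_ : CharP K ℓ) (φ : Zb →+* K)
      (x : σ → K), ∀ k, eval₂ φ x (F k) = 0) :
    ∃ z : σ → ℂ, ∀ k, eval₂ (algebraMap Zb ℂ) z (F k) = 0 := by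
  by_contra hcon
  push Not at hcon
  set I : Ideal (MvPolynomial σ AA) := Ideal.span (Set.range fun k => map jj (F k)) with hI
  have hempty : zeroLocus ℂ I = ∅ := by
    rw [hI, zeroLocus_span]
    ext z
    simp only [Set.mem_ofPred_eq, Set.mem_empty_iff_false, iff_false]
    intro hz
    obtain ⟨k, hk⟩ := hcon z
    apply hk
    have h1 := hz _ ⟨k, rfl⟩
    rw [aeval_def, eval₂_map] at h1
    exact h1
  have h1 : (1 : MvPolynomial σ AA) ∈ I := by
    have h2 := vanishingIdeal_zeroLocus_eq_radical (K := ℂ) I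
    rw [hempty, vanishingIdeal_empty] at h2
    have h3 : (1 : MvPolynomial σ AA) ∈ I.radical := by
      rw [← h2]
      exact Submodule.mem_top
    obtain ⟨r, hr⟩ := h3
    rwa [one_pow] at hr
  obtain ⟨D, hD, p', hp', hmap⟩ := exists_denom_span F 1 h1
  have hp'' : p' = C (D : Zb) := by
    apply map_injective jj jj_injective
    rw [hmap, mul_one, map_C_natCast]
  obtain ⟨ℓ, hℓ, K, _, _, φ, x, hx⟩ := h D
  have hker : Ideal.span (Set.range F) ≤ RingHom.ker (eval₂Hom φ x) := by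
    rw [Ideal.span_le]
    rintro _ ⟨k, rfl⟩
    exact hx k
  have h0 : eval₂Hom φ x p' = 0 := hker hp'
  rw [hp'', eval₂Hom_C, map_natCast, CharP.cast_eq_zero_iff K ℓ] at h0
  exact absurd (Nat.le_of_dvd (Nat.pos_of_ne_zero hD) h0) (not_le.2 hℓ)

/-- the equations. -/
noncomputable def eqs (n : ℕ) (m : Fin n → Fin n → Fin n) (t d : Fin n → Zb) :
    (Fin n × Fin n × Fin 2 × Fin 2) ⊕ (Fin n ⊕ Fin n) →
      MvPolynomial (Fin n × Fin 2 × Fin 2) Zb
  | Sum.inl (a, b, i, j) => X (a, i, 0) * X (b, 0, j) + X (a, i, 1) * X (b, 1, j) - X (m a b, i, j)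
  | Sum.inr (Sum.inl a) => X (a, 0, 0) + X (a, 1, 1) - C (t a)
  | Sum.inr (Sum.inr a) => X (a, 0, 0) * X (a, 1, 1) - X (a, 0, 1) * X (a, 1, 0) - C (d a)

theorem eval_eqs_iff {K : Type} [Field K] (φ : Zb →+* K) (n : ℕ) (m : Fin n → Fin n → Fin n)
    (t d : Fin n → Zb) (X : Fin n → Matrix (Fin 2) (Fin 2) K) :
    (∀ k, eval₂ φ (fun s : Fin n × Fin 2 × Fin 2 => X s.1 s.2.1 s.2.2) (eqs n m t d k) = 0) ↔
      (∀ a b, X a * X b = X (m a b)) ∧ ∀ a, (X a).trace = φ (t a) ∧ (X a).det = φ (d a) := by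
  constructor
  · intro h
    refine ⟨fun a b => ?_, fun a => ⟨?_, ?_⟩⟩
    · ext i j
      have := h (Sum.inl (a, b, i, j))
      simp only [eqs, eval₂_sub, eval₂_add, eval₂_mul, eval₂_X] at this
      rw [Matrix.mul_apply, Fin.sum_univ_two]
      exact sub_eq_zero.1 this
    · have := h (Sum.inr (Sum.inl a))
      simp only [eqs, eval₂_sub, eval₂_add, eval₂_X, eval₂_C] at this
      rw [Matrix.trace_fin_two]
      exact sub_eq_zero.1 this
    · have := h (Sum.inr (Sum.inr a))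
      simp only [eqs, eval₂_sub, eval₂_mul, eval₂_X, eval₂_C] at this
      rw [Matrix.det_fin_two]
      exact sub_eq_zero.1 this
  · rintro ⟨h1, h2⟩ (⟨a, b, i, j⟩ | a | a)
    · simp only [eqs, eval₂_sub, eval₂_add, eval₂_mul, eval₂_X]
      rw [← h1 a b, Matrix.mul_apply, Fin.sum_univ_two, sub_self]
    · simp only [eqs, eval₂_sub, eval₂_add, eval₂_X, eval₂_C]
      rw [← (h2 a).1, Matrix.trace_fin_two, sub_self]
    · simp only [eqs, eval₂_sub, eval₂_mul, eval₂_X, eval₂_C]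
      rw [← (h2 a).2, Matrix.det_fin_two, sub_self]

end LFN

theorem exists_complex_solution (n : ℕ) (m : Fin n → Fin n → Fin n) (t d : Fin n → Zb)
    (h : ∀ B : ℕ, ∃ ℓ : ℕ, B < ℓ ∧ ∃ (K : Type) (_ : Field K) (_ : CharP K ℓ) (φ : Zb →+* K)
      (X : Fin n → Matrix (Fin 2) (Fin 2) K),
      (∀ a b, X a * X b = X (m a b)) ∧ ∀ a, (X a).trace = φ (t a) ∧ (X a).det = φ (d a)) :
    ∃ X : Fin n → Matrix (Fin 2) (Fin 2) ℂ,
      (∀ a b, X a * X b = X (m a b)) ∧ ∀ a, (X a).trace = (t a : ℂ) ∧ (X a).det = (d a : ℂ) := by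
  obtain ⟨z, hz⟩ := LFN.exists_point (LFN.eqs n m t d) (by
    intro B
    obtain ⟨ℓ, hℓ, K, iK, iC, φ, X, hX⟩ := h B
    exact ⟨ℓ, hℓ, K, iK, iC, φ, _, (LFN.eval_eqs_iff φ n m t d X).2 hX⟩)
  exact ⟨fun a => Matrix.of fun i j => z (a, i, j),
    (LFN.eval_eqs_iff (algebraMap Zb ℂ) n m t d (fun a => Matrix.of fun i j => z (a, i, j))).1 hz⟩

end Fermat.Agent.S48
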