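import Fermat.Agent.S48.Defs
import Fermat.Agent.S48.RK.Main
import Fermat.Agent.S48.W1.FV

/-!
# S48, chapters W1 + RK + FV : the analytic / arithmetic outputs on the coefficients `a_p`

* `isIntegral_coeff` : `a_p` is an algebraic integer (`p ∤ N`);
* `finite_values` : for every `η > 0` there is a finite set `Y` such that `{p ∤ N : a_p ∉ Y}` has upper Dirichlet density `≤ η`;
* `sharp_bound` : if `|a_p| ≤ 2` for all `p ∤ N` then `∑ |a_p|² p^{-t} ≤ log (1/(t-1)) + C`.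
-/

set_option autoImplicit false

open CongruenceSubgroup
open scoped MatrixGroups

namespace Fermat.Agent.S48

variable {N : ℕ} [NeZero N] {ε : DirichletCharacter ℂ N} {f : CuspForm (Gamma1 N) 1}

theorem isIntegral_coeff (hf : IsEigen N ε f) {p : ℕ} (hp : p.Prime) (hpN : ¬ p ∣ N) :
    IsIntegral ℤ (ModularFormClass.qCoeff f p) :=
  W1.isIntegral_coeff' hf hp hpN

theorem finite_values (hf : IsEigen N ε f) (η : ℝ) (hη : 0 < η) :
    ∃ (Y : Finset ℂ) (C : ℝ), ∀ t ∈ Set.Ioc (1 : ℝ) 2,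
      pSum {p : ℕ | p.Prime ∧ ¬ p ∣ N ∧ ModularFormClass.qCoeff f p ∉ Y} t ≤ η * LL t + C :=
  W1.finite_values' hf η hη

theorem sharp_bound (hf : IsEigen N ε f)
    (h2 : ∀ p : ℕ, p.Prime → ¬ p ∣ N → ‖ModularFormClass.qCoeff f p‖ ≤ 2) :
    ∃ C : ℝ, ∀ t ∈ Set.Ioc (1 : ℝ) 2,
      wSum (fun p => if p ∣ N then 0 else ‖ModularFormClass.qCoeff f p‖ ^ 2) t ≤ LL t + C :=
  RK.sharp_bound hf h2

end Fermat.Agent.S48
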