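import Fermat.Agent.S48.Defs
import Fermat.Agent.S48.Mid.Main

/-!
# S48, Theorem A' : the residual representations attached to `f`

For all large primes `ℓ`, every algebraically closed field `K` of characteristic `ℓ` and every ring homomorphism
`φ : ℤ̄ → K` there is a semisimple `ρ : G_ℚ → GL₂(K)` of finite level, unramified outside `N ℓ`, such that the Frobenius
elements at `r ∤ N ℓ` have trace `φ(a_r)` and determinant `φ(ε(r))`.

Route: `f₀ = ∑_{(n,N)=1} a_n q^n ∈ S₁(Γ₁(N²))` (W1: NEB, DEP), `G ∈ M₁(Γ₁(ℓ))` with `ℤ̄`-integral expansions, `⟨d⟩G ≡ c/d`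
modulo every maximal ideal over `ℓ` (chapter G1), `g = f₀ G ∈ S₂(Γ₁(N²ℓ))` and Theorem A (weight two on `Γ₁(M)`).
-/

set_option autoImplicit false

open CongruenceSubgroup
open scoped MatrixGroups

namespace Fermat.Agent.S48

theorem exists_residual {N : ℕ} [NeZero N] {ε : DirichletCharacter ℂ N} {f : CuspForm (Gamma1 N) 1}
    (hf : IsEigen N ε f) :
    ∃ ℓ₀ : ℕ, ∀ ℓ : ℕ, ℓ.Prime → ℓ₀ ≤ ℓ → ∀ (K : Type) [Field K] [IsAlgClosed K] [CharP K ℓ]
      (φ : Zb →+* K),
      ∃ ρ : GQ →* GL (Fin 2) K, IsResidual N ε f ℓ φ ρ :=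
  Mid.exists_residual hf

end Fermat.Agent.S48
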